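/-
Programme T1B (row 38 via S44), final assembly helper (helper46): EXISTENCE OF THE HUB BASE FIELD.

For a prime `p` and a level `M'` prime to `p` there is a number field `K ⊂ ℚ̄` with `ζ_{M'} ∈ K`
which is INERTIAL at the Prelude place `padicPlace p` (fixed pointwise by the inertia group, stable
under the decomposition group); in fact `K = ℚ(ζ_{M'})`, stable under all of `Gal(ℚ̄/ℚ)`.
This is the existence statement behind the parameters `(K, hζ, hK)` of the concrete hub
(`Hub9.HubParams p M' K`), to be used in the final file `Local66/Final.lean`.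
-/
import Mathlib
import Fermat.Agent.ES.P36.ZetaUnr26
import Fermat.Agent.ES.P36.InertField27
import Fermat.Agent.T1.LocModel46.Basic

set_option autoImplicit false

open Fermat.Agent.TW.B5.Iface

namespace Fermat.Agent.T1B.Hub46

/-- **Existence of the hub base field**: a finite `K ∋ ζ_{M'}`, inertial at `padicPlace p`
and stable under every automorphism of `ℚ̄`. -/
theorem exists_inertial_zeta_field (p : ℕ) [Fact p.Prime] (M' : ℕ) [NeZero M'] (hpM : ¬ p ∣ M') :
    ∃ K : IntermediateField ℚ (AlgebraicClosure ℚ), FiniteDimensional ℚ K ∧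
      Fermat.Agent.X0.zetaK M' ∈ K ∧
      Fermat.Agent.ES.P36.InertField27.IsInertial (padicPlace p) K ∧
      ∀ σ : AlgebraicClosure ℚ ≃ₐ[ℚ] AlgebraicClosure ℚ, ∀ x ∈ K, σ x ∈ K := by
  obtain ⟨K, hfin, hζ, hfix, hst⟩ :=
    Fermat.Agent.ES.P36.ZetaUnr26.exists_zeta_field_unr (A := padicPlace p) (q := p)
      (Fact.out : p.Prime) (Fermat.Agent.T1.LocModel46.liesOverPrime p) M' hpM
  exact ⟨K, hfin, hζ, ⟨hfix, fun σ _ x hx => hst σ x hx⟩, hst⟩

/-- The same for the level `4 * m` of the local contract (`p ≥ 5`, `p ∤ m`). -/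
theorem exists_inertial_zeta_field_four (p : ℕ) [Fact p.Prime] (m : ℕ) [NeZero (4 * m)]
    (hp5 : 5 ≤ p) (hpm : ¬ p ∣ m) :
    ∃ K : IntermediateField ℚ (AlgebraicClosure ℚ), FiniteDimensional ℚ K ∧
      Fermat.Agent.X0.zetaK (4 * m) ∈ K ∧
      Fermat.Agent.ES.P36.InertField27.IsInertial (padicPlace p) K ∧
      ∀ σ : AlgebraicClosure ℚ ≃ₐ[ℚ] AlgebraicClosure ℚ, ∀ x ∈ K, σ x ∈ K := by
  refine exists_inertial_zeta_field p (4 * m) ?_
  have hp : p.Prime := Fact.out
  intro h
  rcases (Nat.Prime.dvd_mul hp).1 h with h4 | hm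
  · have hle : p ≤ 4 := Nat.le_of_dvd (by norm_num) h4
    omega
  · exact hpm hm

end Fermat.Agent.T1B.Hub46
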