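/-
Programme T1B (row 38 via S44), final assembly helper (helper46): EXISTENCE OF THE HUB PARAMETERS.

`exists_hubParams`      : for `p` odd, `4 ∣ M'`, `p ∤ M'` there is a number field `K` with
                          `Hub9.HubParams p M' K` (namely `K = ℚ(ζ_{M'})`, inertial at `padicPlace p`).
`exists_hubParams_four` : the same at the level `M' = 4 * m` of the local contract
                          `Top68.LOCALGEOMStd` (`5 ≤ p`, `p ∤ m`): the first `obtain` of
                          `Local66/Final.lean`.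
-/
import Mathlib
import Fermat.Agent.T1B.Hub46.ExistsField
import Fermat.Agent.T1B.Hub9.Base

set_option autoImplicit false

open Fermat.Agent.TW.B5.Iface

namespace Fermat.Agent.T1B.Hub46

/-- **Existence of the hub parameters.** -/
theorem exists_hubParams (p M' : ℕ) [Fact p.Prime] [NeZero p] [NeZero M'] (hp2 : p ≠ 2)
    (h4 : 4 ∣ M') (hpM : ¬ p ∣ M') :
    ∃ K : IntermediateField ℚ (AlgebraicClosure ℚ), FiniteDimensional ℚ K ∧
      Fermat.Agent.T1B.Hub9.HubParams p M' K := by
  obtain ⟨K, hfin, hζ, hK, -⟩ := exists_inertial_zeta_field p M' hpM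
  exact ⟨K, hfin, ⟨hp2, h4, hpM, hζ, hK⟩⟩

/-- **Existence of the hub parameters at the level `4 * m`** (`p ≥ 5`, `p ∤ m`). -/
theorem exists_hubParams_four (p : ℕ) [Fact p.Prime] [NeZero p] (m : ℕ) [NeZero (4 * m)]
    (hp5 : 5 ≤ p) (hpm : ¬ p ∣ m) :
    ∃ K : IntermediateField ℚ (AlgebraicClosure ℚ), FiniteDimensional ℚ K ∧
      Fermat.Agent.T1B.Hub9.HubParams p (4 * m) K := by
  refine exists_hubParams p (4 * m) (by omega) (Dvd.intro m rfl) ?_
  have hp : p.Prime := Fact.out
  intro h
  rcases (Nat.Prime.dvd_mul hp).1 h with h4 | hm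
  · have hle : p ≤ 4 := Nat.le_of_dvd (by norm_num) h4
    omega
  · exact hpm hm

end Fermat.Agent.T1B.Hub46
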